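import Fermat.Agent.Carayol.Omega.Galois

/-!
# Descent of a root to a subfield, with a uniform exponent
-/

set_option autoImplicit false

noncomputable section

namespace Fermat.Agent.Carayol.Descent

open Omega

/-- An exponent killing the degree of every subextension over the line. -/
def degBound (N : ℕ) : ℕ := Nat.factorial (N ^ 4)

lemma degBound_pos (N : ℕ) : 0 < degBound N := Nat.factorial_pos _

theorem card_movesGroup_le {N : ℕ} [NeZero N] {K : Type*} [Field K] [CharZero K]
    (E : Omega.Setup N K) (k : Type*) [Field k] [Algebra k K] :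
    Nat.card (E.movesGroup k) ≤ N ^ 4 := by
  classical
  have h : Function.Injective fun e : E.movesGroup k => e.2.choose := fun e f h => Subtype.ext (by
    have he := e.2.choose_spec
    have hf := f.2.choose_spec
    rw [show e.2.choose = f.2.choose from h] at he
    exact he.ext hf)
  refine (Nat.card_le_card_of_injective _ h).trans (le_of_eq ?_)
  rw [Nat.card_eq_fintype_card]
  rw [show Fintype.card (Matrix (Fin 2) (Fin 2) (ZMod N)) = Fintype.card (Fin 2 → Fin 2 → ZMod N)
    from rfl]
  simp only [Fintype.card_fun, ZMod.card, Fintype.card_fin]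
  ring

theorem exists_descent {N : ℕ} [NeZero N] {K : Type*} [Field K] [CharZero K]
    (E : Omega.Setup N K) (k : Type*) [Field k] [Algebra k K] [IsGalois k K]
    (F : IntermediateField k (E.field k)) (hj : E.fj k ∈ F) {x h : E.field k} (hx : x ∈ F)
    {c : k} {m : ℕ} (e : x = algebraMap k (E.field k) c * h ^ m) :
    ∃ g ∈ F, x ^ degBound N = algebraMap k (E.field k) (c ^ degBound N) * g ^ m := by
  classical
  have hbF : E.base k ≤ F := IntermediateField.adjoin_le_iff.mpr (Set.singleton_subset_iff.mpr hj)
  have := E.finiteDimensional_base k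
  have := E.isGalois_base k
  set G := F.fixingSubgroup
  have hG : G ≤ E.movesGroup k := by
    rw [← E.fixingSubgroup_base k]
    exact IntermediateField.fixingSubgroup_le hbF
  have : Finite G := Finite.of_injective _ (Subgroup.inclusion_injective hG)
  have := Fintype.ofFinite G
  have hdvd : Fintype.card G ∣ degBound N := by
    refine Nat.dvd_factorial Fintype.card_pos ?_
    rw [← Nat.card_eq_fintype_card]
    exact (Nat.card_le_card_of_injective _ (Subgroup.inclusion_injective hG)).trans
      (card_movesGroup_le E k)
  obtain ⟨r, hr⟩ := hdvd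
  set g : E.field k := ∏ σ : G, (σ : E.field k ≃ₐ[k] E.field k) h
  have hfix : ∀ σ : G, (σ : E.field k ≃ₐ[k] E.field k) x = x := fun σ =>
    (IntermediateField.mem_fixingSubgroup_iff _ _).mp σ.2 x hx
  have hg : g ∈ F := by
    have h1 : g ∈ IntermediateField.fixedField
        (IntermediateField.extendScalars hbF).fixingSubgroup := by
      rw [IntermediateField.mem_fixedField_iff]
      intro τ hτ
      have hτ' : τ.restrictScalars k ∈ G := by
        rw [IntermediateField.mem_fixingSubgroup_iff] at hτ ⊢
        exact fun y hy => hτ y hy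
      show τ (∏ σ : G, _) = _
      rw [map_prod]
      exact Fintype.prod_equiv (Equiv.mulLeft (⟨_, hτ'⟩ : G)) _ _ fun σ => rfl
    rw [IsGalois.fixedField_fixingSubgroup] at h1
    exact h1
  have key : x ^ Fintype.card G = algebraMap k (E.field k) (c ^ Fintype.card G) * g ^ m := by
    calc x ^ Fintype.card G = ∏ σ : G, (σ : E.field k ≃ₐ[k] E.field k) x := by
          rw [Finset.prod_congr rfl fun σ _ => hfix σ, Finset.prod_const, Finset.card_univ]
      _ = _ := by
          simp only [g, e, map_mul, map_pow, AlgEquiv.commutes, Finset.prod_mul_distrib,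
            Finset.prod_const, Finset.card_univ, Finset.prod_pow]
  refine ⟨g ^ r, pow_mem hg r, ?_⟩
  rw [hr, pow_mul, key, mul_pow, ← map_pow, ← pow_mul c, ← pow_mul g, ← pow_mul g, mul_comm m r]

end Fermat.Agent.Carayol.Descent
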