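import Fermat.Agent.Mazur.Eisenstein.CuspFibre
import Fermat.Agent.ModFun.Field

/-!
# The degrees of the two degeneracy maps to a level divisible by the prime
-/

set_option autoImplicit false

noncomputable section

open AlgebraicCurve ModularCurve
open Fermat.Agent.Arith (QBar)
open Fermat.Agent.Mazur.Eisenstein
open Fermat.Agent.Genus (Fbar jB)
open scoped IntermediateField

namespace Fermat.Agent.Carayol.Descent

variable (R q : ℕ) [NeZero R] [NeZero q]

theorem finrankAlong_alpha_of_dvd (hq : q.Prime) (h : q ∣ R) :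
    finrankAlong QBar (heckeAlphaBar QBar R q) = q := by
  have : NeZero (R * q) := ⟨Nat.mul_ne_zero (NeZero.ne R) (NeZero.ne q)⟩
  have hα := degree_poles_map (heckeAlphaBar QBar R q) (ModFun.transcendental_jBase R QBar)
  rw [show heckeAlphaBar QBar R q (ModFun.jBase R QBar) = jB (R * q) from Subtype.ext rfl,
    (ModFun.finrank_baseChange (R * q) QBar).2, (ModFun.finrank_baseChange R QBar).2,
    show dedekindPsi (R * q) = q * dedekindPsi R from
      (congrArg dedekindPsi (mul_comm R q)).trans (Gamma0.dedekindPsi_mul_of_dvd hq h)] at hα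
  have hpos : 0 < dedekindPsi R := by
    rw [← ModFun.natCard_coset R]; exact Nat.card_pos
  exact Nat.eq_of_mul_eq_mul_right hpos hα.symm

theorem finrankAlong_beta_of_dvd (hq : q.Prime) (h : q ∣ R) :
    finrankAlong QBar (heckeBetaBar QBar R q) = q := by
  have : NeZero (R * q) := ⟨Nat.mul_ne_zero (NeZero.ne R) (NeZero.ne q)⟩
  have : Fact q.Prime := ⟨hq⟩
  have hjq : Module.finrank QBar⟮jB q⟯ (Fbar q) = q + 1 :=
    (ModFun.finrank_baseChange q QBar).2.trans (dedekindPsi_prime q)
  have hι := degree_poles_map (inclLevel q (R * q) (dvd_mul_left q R))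
    (ModFun.transcendental_jBase q QBar)
  rw [show inclLevel q (R * q) (dvd_mul_left q R) (ModFun.jBase q QBar) = jB (R * q) from
    Subtype.ext rfl, (ModFun.finrank_baseChange (R * q) QBar).2, hjq] at hι
  obtain ⟨e, he1, -⟩ := exists_atkinLehner q
  have hl2 := ModFun.finrank_adjoin_algEquiv e (jB q) (ModFun.finrank_baseChange q QBar).1
  rw [he1, hjq] at hl2
  have htl : Transcendental QBar (jAt q q dvd_rfl) := by
    rw [← he1]
    exact fun h => ModFun.transcendental_jBase q QBar
      ((isAlgebraic_algHom_iff e.toAlgHom e.injective).mp h)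
  have hιl := degree_poles_map (inclLevel q (R * q) (dvd_mul_left q R)) htl
  rw [hl2.2] at hιl
  have hβ := degree_poles_map (heckeBetaBar QBar R q) (ModFun.transcendental_jBase R QBar)
  rw [show heckeBetaBar QBar R q (ModFun.jBase R QBar) =
    inclLevel q (R * q) (dvd_mul_left q R) (jAt q q dvd_rfl) from Subtype.ext rfl,
    (ModFun.finrank_baseChange R QBar).2, hιl, ← hι,
    show dedekindPsi (R * q) = q * dedekindPsi R from
      (congrArg dedekindPsi (mul_comm R q)).trans (Gamma0.dedekindPsi_mul_of_dvd hq h)] at hβ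
  have hpos : 0 < dedekindPsi R := by
    rw [← ModFun.natCard_coset R]; exact Nat.card_pos
  exact Nat.eq_of_mul_eq_mul_right hpos hβ.symm

end Fermat.Agent.Carayol.Descent
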