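import Fermat.Agent.Carayol.Rational

/-!
# Norms of fixed functions with principal pushforward

If `D` has principal push forward along `φ` and `m D` is the divisor of a function `f` with fixed
coefficients, then the norm of `f` is a fixed constant times the `m`-th power of a function with
fixed coefficients.
-/

set_option autoImplicit false
set_option linter.style.haveILetI false

noncomputable section

open AlgebraicCurve ModularCurve
open Fermat.Agent.Arith (QBar)

namespace Fermat.Agent.Carayol.Descent

/-- The norm along a map. -/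
def normAlong {F F' : Type*} [Field F] [Field F'] [Algebra QBar F] [Algebra QBar F']
    (φ : F →ₐ[QBar] F') : F' →* F :=
  letI := algebraAlong φ
  Algebra.norm F

section Generic

variable {F F' : Type*} [Field F] [Field F'] [Algebra QBar F] [Algebra QBar F']
  [FF.IsFunctionField QBar F] [FF.IsFunctionField QBar F'] (φ : F →ₐ[QBar] F')

theorem normAlong_ne_zero {f : F'} (hf : f ≠ 0) : normAlong φ f ≠ 0 := by
  letI := algebraAlong φ
  have : Module.Finite F F' := FF.finiteAlong φ
  exact Algebra.norm_ne_zero_iff.mpr hf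

/-- The divisor of a norm is the push forward of the divisor. -/
theorem ord_normAlong (hφ : φ.toRingHom.IsIntegral) {f : F'} (hf : f ≠ 0) {D : Divisor QBar F'}
    {m : ℕ} (hord : ∀ P : Place QBar F', P.ord f = (m : ℤ) * D P) (v : Place QBar F) :
    v.ord (normAlong φ f) = (m : ℤ) * Divisor.pushforwardAlong φ hφ D v := by
  letI := algebraAlong φ
  have := isScalarTower_along φ
  have := isIntegral_along φ hφ
  have : Module.Finite F F' := FF.finiteAlong φ
  have h := FF.pushforwardNormFormula f hf ((m : ℤ) • D)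
    (fun w => by rw [Finsupp.smul_apply, hord, smul_eq_mul]) v
  rw [map_zsmul, Finsupp.smul_apply, smul_eq_mul] at h
  exact h.symm

omit [FF.IsFunctionField QBar F] [FF.IsFunctionField QBar F'] in
/-- Norms commute with compatible automorphisms. -/
theorem normAlong_apply_of_comm (e₁ : F ≃+* F) (e₂ : F' ≃+* F')
    (h : ∀ x, φ (e₁ x) = e₂ (φ x)) (x : F') :
    e₁ (normAlong φ x) = normAlong φ (e₂ x) := by
  letI := algebraAlong φ
  have := Algebra.norm_eq_of_equiv_equiv e₁ e₂ (RingHom.ext h) x
  show e₁ (Algebra.norm F x) = Algebra.norm F (e₂ x)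
  rw [this, RingEquiv.apply_symm_apply]

end Generic

theorem leadingCoeff_pow_eq {R : Type*} [CommRing R] [IsDomain R] (x : LaurentSeries R) :
    ∀ m : ℕ, (x ^ m).leadingCoeff = x.leadingCoeff ^ m
  | 0 => by rw [pow_zero, pow_zero, HahnSeries.leadingCoeff_one]
  | m + 1 => by rw [pow_succ, pow_succ, HahnSeries.leadingCoeff_mul, leadingCoeff_pow_eq x m]

set_option maxHeartbeats 800000 in
theorem exists_norm_eq {A : ValuationSubring QBar} {R N : ℕ} [NeZero R] [NeZero N]
    (φ : modularFunctionFieldBar R →ₐ[QBar] modularFunctionFieldBar N)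
    (hφint : φ.toRingHom.IsIntegral)
    (hcomm : ∀ (σ : QBar ≃ₐ[ℚ] QBar) (x : modularFunctionFieldBar R),
      φ ((arithmeticGalois (modularFunctionFieldFull R) σ) • x) =
        (arithmeticGalois (modularFunctionFieldFull N) σ) • φ x)
    {m : ℕ} (hm : m ≠ 0) {f : modularFunctionFieldBar N} (hf : f ≠ 0)
    (hfix : CoeffFixed A (f : LaurentSeries QBar)) {D : Divisor QBar (modularFunctionFieldBar N)}
    (hord : ∀ P : Place QBar (modularFunctionFieldBar N), P.ord f = (m : ℤ) * D P)
    (hp : (Divisor.pushforwardAlong φ hφint D).IsPrincipal) :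
    ∃ (c : inertiaField A) (g : modularFunctionFieldBar R), c ≠ 0 ∧ g ≠ 0 ∧
      CoeffFixed A (g : LaurentSeries QBar) ∧
      (normAlong φ f : LaurentSeries QBar) =
        algebraMap (inertiaField A) (LaurentSeries QBar) c * (g : LaurentSeries QBar) ^ m := by
  set n := normAlong φ f with hn
  have hn0 : n ≠ 0 := normAlong_ne_zero φ hf
  have hnfix : ∀ σ ∈ A.inertiaSubgroupIn ℚ,
      (arithmeticGalois (modularFunctionFieldFull R) σ) • n = n := fun σ hσ => by
    have h := normAlong_apply_of_comm φ
      (SemilinearAut.toRingAut (arithmeticGalois (modularFunctionFieldFull R) σ))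
      (SemilinearAut.toRingAut (arithmeticGalois (modularFunctionFieldFull N) σ)) (hcomm σ) f
    exact h.trans (congrArg (normAlong φ) (coeffFixed_iff.mp hfix σ hσ))
  obtain ⟨h₀, hh0, hh⟩ := hp
  set l := (h₀ : LaurentSeries QBar).leadingCoeff
  have hl0 : l ≠ 0 := HahnSeries.leadingCoeff_ne_zero.mpr fun e => hh0 (Subtype.ext e)
  set g := algebraMap QBar (modularFunctionFieldBar R) l⁻¹ * h₀ with hg
  have hcl : algebraMap QBar (modularFunctionFieldBar R) l⁻¹ ≠ 0 :=
    (map_ne_zero _).mpr (inv_ne_zero hl0)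
  have hg0 : g ≠ 0 := mul_ne_zero hcl hh0
  have hlead : (g : LaurentSeries QBar).leadingCoeff = 1 := by
    rw [hg, leadingCoeff_algebraMap_mul, inv_mul_cancel₀ hl0]
  have hgord : ∀ P : Place QBar (modularFunctionFieldBar R), P.ord n = (m : ℤ) * P.ord g := fun P => by
    rw [hn, ord_normAlong φ hφint hf hord P, hg, P.ord_mul hcl hh0, FF.ord_algebraMap, zero_add,
      hh]
  have hgfix : ∀ σ ∈ A.inertiaSubgroupIn ℚ,
      (arithmeticGalois (modularFunctionFieldFull R) σ) • g = g := fun σ hσ => by
    set a := arithmeticGalois (modularFunctionFieldFull R) σ with ha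
    have hne : a • g ≠ 0 := (map_ne_zero (SemilinearAut.toRingAut a)).mpr hg0
    obtain ⟨b, hb⟩ := exists_eq_mul_of_ord hne hg0 fun P => by
      have h1 := hgord P
      rw [← hnfix σ hσ, ← smul_inv_smul a P, SemilinearAut.ord_smul, hgord] at h1
      conv_lhs => rw [← smul_inv_smul a P, SemilinearAut.ord_smul]
      rw [mul_left_cancel₀ (Int.natCast_ne_zero.mpr hm) h1, smul_inv_smul]
    exact eq_of_leadingCoeff hb hg0 (by rw [leadingCoeff_smul, hlead, map_one])
  obtain ⟨b, hb⟩ := exists_eq_mul_of_ord hn0 (pow_ne_zero m hg0) fun P => by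
    rw [hgord P, JacTorsion.ord_pow]
  have hb0 : b ≠ 0 := fun h => hn0 (by rw [hb, h, map_zero, zero_mul])
  have hbfix : ∀ σ ∈ A.inertiaSubgroupIn ℚ, σ b = b := fun σ hσ => by
    have h1 : (n : LaurentSeries QBar).leadingCoeff = b := by
      rw [hb, leadingCoeff_algebraMap_mul,
        show ((g ^ m : modularFunctionFieldBar R) : LaurentSeries QBar) =
          (g : LaurentSeries QBar) ^ m from rfl]
      rw [leadingCoeff_pow_eq, hlead, one_pow, mul_one]
    rw [← h1]
    conv_rhs => rw [← hnfix σ hσ]
    exact (leadingCoeff_smul σ n).symm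
  refine ⟨⟨b, (mem_inertiaField A).mpr hbfix⟩, g, fun h => hb0 (congrArg Subtype.val h), hg0,
    coeffFixed_iff.mpr hgfix, ?_⟩
  rw [hb]
  rfl

end Fermat.Agent.Carayol.Descent
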