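import Fermat.Agent.Carayol.Omega.Maps
import Fermat.Agent.Carayol.Descent.NormRat
import Fermat.Agent.Carayol.Statement

/-!
# The partial norms as products over the unipotent groups

`x ↦ x (τ/q)` embeds the function field of level `q M q` in the field of level `q n`. The upper,
respectively lower, unipotent translates of this embedding are the `q` embeddings over the image
of the first, respectively second, degeneracy map, so their product is the norm.
-/

set_option autoImplicit false
set_option linter.unusedSectionVars false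

noncomputable section

open AlgebraicCurve ModularCurve
open Fermat.Agent.Arith (QBar)
open scoped MatrixGroups

namespace Fermat.Agent.Carayol.Descent

open Omega

/-- A family of `q` distinct embeddings over a map of degree `q` computes the norm. -/
theorem prod_eq_norm_of_family {q : ℕ} [NeZero q] {F F' L : Type*} [Field F] [Field F'] [Field L]
    [CharZero F] [Algebra QBar F] [Algebra QBar F'] (φ : F →ₐ[QBar] F')
    (hdeg : finrankAlong QBar φ = q) (ε : F →+* L) (σ : ZMod q → F' →+* L)
    (hσ : ∀ a z, σ a (φ z) = ε z) (hinj : Function.Injective σ) (x : F') :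
    ∏ a, σ a x = ε (normAlong φ x) := by
  classical
  let := algebraAlong φ
  have hd : Module.finrank F F' = q := hdeg
  have : Module.Finite F F' := Module.finite_of_finrank_pos (by rw [hd]; exact NeZero.pos q)
  let ι : L →+* AlgebraicClosure L := algebraMap _ _
  let : Algebra F (AlgebraicClosure L) := (ι.comp ε).toAlgebra
  let τ : ZMod q → (F' →ₐ[F] AlgebraicClosure L) := fun a =>
    { ι.comp (σ a) with commutes' := fun z => congrArg ι (hσ a z) }
  have hτ : Function.Injective τ := fun a b h =>
    hinj (RingHom.ext fun z => ι.injective (DFunLike.congr_fun h z))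
  have hcard : Fintype.card (F' →ₐ[F] AlgebraicClosure L) = Fintype.card (ZMod q) := by
    rw [AlgHom.card, ZMod.card]
    exact hd
  apply ι.injective
  refine Eq.symm (Eq.trans (Algebra.norm_eq_prod_embeddings F (AlgebraicClosure L) x) ?_)
  rw [map_prod, ← Equiv.prod_comp
    (Equiv.ofBijective τ ((Fintype.bijective_iff_injective_and_card τ).mpr ⟨hτ, hcard.symm⟩))]
  rfl

/-- Two maps on a function field agreeing on the generators are equal. -/
theorem eq_of_eq_on_gens {N : ℕ} [NeZero N] {X : Type*} [Field X] [Algebra QBar X]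
    (g g' : modularFunctionFieldBar N →ₐ[QBar] X)
    (h : ∀ (d : ℕ) [NeZero d], d ∣ N → ∀ z : modularFunctionFieldBar N,
      (z : LaurentSeries QBar) = qExpand QBar d (jqModC QBar) → g z = g' z) : g = g' := by
  have e : modularFunctionFieldBar N = modularFunctionFieldFullC QBar N :=
    ModFun.laurentBaseChange_eq_fullC N QBar
  let eq : modularFunctionFieldFullC QBar N ≃ₐ[QBar] modularFunctionFieldBar N :=
    IntermediateField.equivOfEq e.symm
  have key : g.comp eq.toAlgHom = g'.comp eq.toAlgHom := by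
    refine IntermediateField.adjoin_algHom_ext QBar ?_
    intro x hx
    obtain ⟨d, hd, hdN, rfl⟩ := hx
    have := hd
    exact h d hdN _ rfl
  refine AlgHom.ext fun z => ?_
  rw [← eq.apply_symm_apply z]
  exact DFunLike.congr_fun key (eq.symm z)

variable {q n M : ℕ} [NeZero q] [NeZero n] [NeZero M] [NeZero (q * n)]
  (E : Omega.Setup (q * n) QBar)

/-- The series of an automorphism moving labels by a reduced integral matrix does not depend on
the base field. -/
theorem coe_moves_eq {k : Type*} [Field k] [Algebra k QBar] {k' : Type*} [Field k']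
    [Algebra k' QBar] {M₀ : Matrix (Fin 2) (Fin 2) (ZMod (q * n))} (hdet : M₀.det = 1)
    {e : E.field k ≃ₐ[k] E.field k} (he : E.Moves k e M₀)
    {e' : E.field k' ≃ₐ[k'] E.field k'} (he' : E.Moves k' e' M₀) {y : E.field k} {y' : E.field k'}
    (h : (y : LaurentSeries QBar) = (y' : LaurentSeries QBar)) :
    ((e y : E.field k) : LaurentSeries QBar) = ((e' y' : E.field k') : LaurentSeries QBar) := by
  obtain ⟨γ, hγ⟩ := exists_redMat_eq hdet
  obtain ⟨f, hf, hfval⟩ := E.exists_moves_subst k γ
  obtain ⟨f', hf', hf'val⟩ := E.exists_moves_subst k' γ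
  rw [he.ext (hγ ▸ hf), he'.ext (hγ ▸ hf'), hfval, hf'val]
  show E.fracPull γ (E.toFrac k y) = E.fracPull γ (E.toFrac k' y')
  congr 1
  exact E.fracSer.injective (by rw [E.fracSer_toFrac, E.fracSer_toFrac, h])

section Main

variable (hq : q.Prime) (L : ℕ) (hL : L = 7 ∨ L = 9) (hLn : L ∣ n) (hcop : q.Coprime n)
  (hM : M ∣ n)

include hL hLn in
theorem goodPt_markLabel : GoodPt (markLabel hcop L) := by
  have hn0 : n ≠ 0 := NeZero.ne n
  have hord : ∀ i, i • markLabel hcop L = 0 ↔ L ∣ i := nsmul_markLabel_eq_zero_iff hcop hn0 hLn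
  exact ⟨fun h => by have := Nat.le_of_dvd (by norm_num) ((hord 2).mp h); omega,
    fun h => by have := Nat.le_of_dvd (by norm_num) ((hord 3).mp h); omega⟩

include hq hL hLn hcop hM in
theorem exists_embField : ∃ φ : modularFunctionFieldBar (q * M * q) →ₐ[QBar] E.field QBar,
    ∀ x, (φ x : LaurentSeries QBar) = qExpand QBar n (x : LaurentSeries QBar) := by
  have hP := goodPt_markLabel L hL hLn hcop
  have hle : modularFunctionFieldFullC QBar (q * M * q) ≤
      (E.field QBar).comap (qExpandAlgHomC QBar n) := by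
    rw [modularFunctionFieldFullC, IntermediateField.adjoin_le_iff]
    intro x hx
    obtain ⟨d, hd, hdN, rfl⟩ := hx
    have := hd
    exact E.qExpand_jd_mem QBar hP hcop hq hM hdN
  exact ⟨((qExpandAlgHomC QBar n).comp (modularFunctionFieldBar (q * M * q)).val).codRestrict
      (E.field QBar).toSubalgebra fun x => hle (by
        rw [← ModFun.laurentBaseChange_eq_fullC]; exact x.2), fun x => rfl⟩

variable (U : Multiplicative (ZMod q) →* GL (Fin 2) (ZMod q))
  (hU : ∀ a, ((U a : GL (Fin 2) (ZMod q)) : Matrix (Fin 2) (Fin 2) (ZMod q)).det = 1)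

include hU in
theorem det_liftMat_eq_one (a : Multiplicative (ZMod q)) :
    (liftMat hcop (U a : Matrix (Fin 2) (Fin 2) (ZMod q))).det = 1 := by
  apply (crt hcop).injective
  rw [crt_det_liftMat, hU, map_one, Prod.mk_one_one]

include hq hL hLn hcop hM hU in
/-- The translates of the embedding by a unipotent group compute a norm. -/
theorem prod_unipotent_eq {R : ℕ} [NeZero R]
    (ψ : modularFunctionFieldBar R →ₐ[QBar] modularFunctionFieldBar (q * M * q))
    (hdeg : finrankAlong QBar ψ = q)
    (hfix : ∀ (d : ℕ) [NeZero d], d ∣ R → ∀ z : modularFunctionFieldBar R,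
      (z : LaurentSeries QBar) = qExpand QBar d (jqModC QBar) →
      ∀ a (e : E.field QBar ≃ₐ[QBar] E.field QBar),
        E.Moves QBar e (liftMat hcop (U a : Matrix (Fin 2) (Fin 2) (ZMod q))) →
        ∀ y : E.field QBar,
          (y : LaurentSeries QBar) = qExpand QBar n (ψ z : LaurentSeries QBar) → e y = y)
    {d₀ : ℕ} [NeZero d₀] (hd₀ : d₀ ∣ q * M * q)
    (hmove : ∀ a (e : E.field QBar ≃ₐ[QBar] E.field QBar),
      E.Moves QBar e (liftMat hcop (U a : Matrix (Fin 2) (Fin 2) (ZMod q))) →
      ∀ y : E.field QBar,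
        (y : LaurentSeries QBar) = qExpand QBar n (qExpand QBar d₀ (jqModC QBar)) →
          e y = y → a = 1)
    (k : Type*) [Field k] [Algebra k QBar]
    (act : ZMod q → (E.field k ≃ₐ[k] E.field k))
    (hact : ∀ a, E.Moves k (act a)
      (liftMat hcop (U (Multiplicative.ofAdd a) : Matrix (Fin 2) (Fin 2) (ZMod q))))
    (x : modularFunctionFieldBar (q * M * q)) (y : E.field k)
    (hy : (y : LaurentSeries QBar) = qExpand QBar n (x : LaurentSeries QBar)) :
    ((∏ a : ZMod q, act a y : E.field k) : LaurentSeries QBar) =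
      qExpand QBar n (ψ (normAlong ψ x) : LaurentSeries QBar) := by
  obtain ⟨φ, hφ⟩ := exists_embField E hq L hL hLn hcop hM
  have hmoves : ∀ a, ∃ e : E.field QBar ≃ₐ[QBar] E.field QBar,
      E.Moves QBar e (liftMat hcop (U a : Matrix (Fin 2) (Fin 2) (ZMod q))) := fun a => by
    obtain ⟨γ, hγ⟩ := exists_redMat_eq (det_liftMat_eq_one hcop U hU a)
    obtain ⟨e, he, -⟩ := E.exists_moves_subst QBar γ
    exact ⟨e, hγ ▸ he⟩
  choose e he using hmoves
  have hcommon : ∀ a z, e a (φ (ψ z)) = φ (ψ z) := fun a z => by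
    have := eq_of_eq_on_gens (((e a).toAlgHom.comp φ).comp ψ) (φ.comp ψ)
      fun d hd hdR z hz => hfix d hdR z hz a (e a) (he a) _ (hφ _)
    exact DFunLike.congr_fun this z
  let σ : ZMod q → modularFunctionFieldBar (q * M * q) →+* LaurentSeries QBar := fun a =>
    (E.field QBar).val.toRingHom.comp
      ((e (Multiplicative.ofAdd a)).toAlgHom.comp φ).toRingHom
  have hσinj : Function.Injective σ := fun a b h => by
    obtain ⟨z, hz⟩ : ∃ z : modularFunctionFieldBar (q * M * q),
        (z : LaurentSeries QBar) = qExpand QBar d₀ (jqModC QBar) :=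
      ⟨⟨_, by
        rw [modularFunctionFieldBar, ModFun.laurentBaseChange_eq_fullC]
        exact jqModCd_mem_full QBar (q * M * q) hd₀⟩, rfl⟩
    have h1 : e (Multiplicative.ofAdd a) (φ z) = e (Multiplicative.ofAdd b) (φ z) :=
      Subtype.ext (RingHom.congr_fun h z)
    have h2 : e (Multiplicative.ofAdd a) = e (Multiplicative.ofAdd b) *
        e (Multiplicative.ofAdd (a - b)) := (he _).ext (by
      have := (he (Multiplicative.ofAdd b)).mul (he (Multiplicative.ofAdd (a - b)))
      rwa [← liftMat_mul, ← Units.val_mul, ← map_mul, ← ofAdd_add, add_sub_cancel] at this)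
    rw [h2, AlgEquiv.mul_apply] at h1
    have h3 := hmove _ _ (he _) (φ z) (by rw [hφ, hz]) ((e _).injective h1)
    exact sub_eq_zero.mp (ofAdd_eq_one.mp h3)
  have hprod := prod_eq_norm_of_family ψ hdeg
    ((qExpand QBar n).comp ((modularFunctionFieldBar (q * M * q)).val.toRingHom.comp ψ.toRingHom))
    σ (fun a z => ((congrArg Subtype.val (hcommon (Multiplicative.ofAdd a) z)).trans (hφ _))) hσinj x
  refine Eq.trans ?_ hprod
  rw [show ((∏ a : ZMod q, act a y : E.field k) : LaurentSeries QBar) =
    ∏ a : ZMod q, ((act a y : E.field k) : LaurentSeries QBar) from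
      map_prod (E.field k).val _ _]
  refine Finset.prod_congr rfl fun a _ => ?_
  exact coe_moves_eq E (det_liftMat_eq_one hcop U hU _) (hact a) (he _) (hy.trans (hφ x).symm)

end Main

/-- The upper unipotent group. -/
def uPlusHom (q : ℕ) : Multiplicative (ZMod q) →* GL (Fin 2) (ZMod q) :=
  MonoidHom.mk' (fun a => uPlus a.toAdd) fun a b => Units.ext (by
    ext i j; fin_cases i <;> fin_cases j <;> simp [uPlus, Matrix.mul_apply, add_comm])

/-- The lower unipotent group. -/
def uMinusHom (q : ℕ) : Multiplicative (ZMod q) →* GL (Fin 2) (ZMod q) :=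
  MonoidHom.mk' (fun a => uMinus a.toAdd) fun a b => Units.ext (by
    ext i j; fin_cases i <;> fin_cases j <;> simp [uMinus, Matrix.mul_apply, add_comm])

variable (k : Type*) [Field k] [Algebra k QBar]
  [DecidableEq ℂ] [DecidableEq (E.field k)] [IsGalois k QBar]

theorem prod_uPlus_eq (hq : q.Prime) (L : ℕ) (hL : L = 7 ∨ L = 9) (hLn : L ∣ n)
    (hcop : q.Coprime n) (hM : M ∣ n)
    (hgal : ∀ d : (ZMod q)ˣ, ∃ σ : QBar ≃ₐ[k] QBar, σ (E.ζ ^ q) = E.ζ ^ q ∧
      σ (E.ζ ^ n) = (E.ζ ^ n) ^ (d : ZMod q).val)
    (hdeg : finrankAlong QBar (heckeAlphaBar QBar (q * M) q) = q)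
    (x : modularFunctionFieldBar (q * M * q)) (y : E.field k)
    (hy : (y : LaurentSeries QBar) = qExpand QBar n (x : LaurentSeries QBar)) :
    ((∏ a : ZMod q, (E.tateLevel k hcop hq L hL hLn hgal).act (uPlus a) y : E.field k) :
        LaurentSeries QBar) =
      qExpand QBar n (normAlong (heckeAlphaBar QBar (q * M) q) x : LaurentSeries QBar) := by
  have hP := goodPt_markLabel L hL hLn hcop
  have h := prod_unipotent_eq E hq L hL hLn hcop hM (uPlusHom q)
    (fun a => by simp [uPlusHom, uPlus, Matrix.det_fin_two])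
    (heckeAlphaBar QBar (q * M) q) hdeg
    (fun d _ hd z hz a e he y' hy' => E.fixed_uPlus hP hcop hq hM hd a.toAdd he
      (by rw [hy', coe_heckeAlphaBar, hz]))
    (d₀ := q * q) (mul_dvd_mul_right (dvd_mul_right q M) q)
    (fun a e he y' hy' hfix => Multiplicative.toAdd.injective
      (E.eq_zero_of_uPlus_fix hP hcop he hy' hfix))
    k (fun a => (E.tateLevel k hcop hq L hL hLn hgal).act (uPlus a))
    (fun a => E.act_moves k hq L hL hLn hcop hgal (uPlus a)) x y hy
  rwa [coe_heckeAlphaBar] at h

theorem prod_uMinus_eq (hq : q.Prime) (L : ℕ) (hL : L = 7 ∨ L = 9) (hLn : L ∣ n)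
    (hcop : q.Coprime n) (hM : M ∣ n)
    (hgal : ∀ d : (ZMod q)ˣ, ∃ σ : QBar ≃ₐ[k] QBar, σ (E.ζ ^ q) = E.ζ ^ q ∧
      σ (E.ζ ^ n) = (E.ζ ^ n) ^ (d : ZMod q).val)
    (hdeg : finrankAlong QBar (heckeBetaBar QBar (q * M) q) = q)
    (x : modularFunctionFieldBar (q * M * q)) (y : E.field k)
    (hy : (y : LaurentSeries QBar) = qExpand QBar n (x : LaurentSeries QBar)) :
    ((∏ a : ZMod q, (E.tateLevel k hcop hq L hL hLn hgal).act (uMinus a) y : E.field k) :
        LaurentSeries QBar) =
      qExpand QBar n (qExpand QBar q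
        (normAlong (heckeBetaBar QBar (q * M) q) x : LaurentSeries QBar)) := by
  have hP := goodPt_markLabel L hL hLn hcop
  have h := prod_unipotent_eq E hq L hL hLn hcop hM (uMinusHom q)
    (fun a => by simp [uMinusHom, uMinus, Matrix.det_fin_two])
    (heckeBetaBar QBar (q * M) q) hdeg
    (fun d _ hd z hz a e he y' hy' => E.fixed_uMinus hP hcop hq hM
      (d := q * d) (by rw [mul_comm (q * M) q]; exact mul_dvd_mul_left q hd) (dvd_mul_right q d)
      a.toAdd he (by
        rw [hy', coe_heckeBetaBar, hz]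
        simp only [ModularCurve.qExpand_qExpand]))
    (d₀ := 1) (one_dvd _)
    (fun a e he y' hy' hfix => Multiplicative.toAdd.injective
      (E.eq_zero_of_uMinus_fix hP hcop he (by rw [hy', qExpand_one_apply]) hfix))
    k (fun a => (E.tateLevel k hcop hq L hL hLn hgal).act (uMinus a))
    (fun a => E.act_moves k hq L hL hLn hcop hgal (uMinus a)) x y hy
  rwa [coe_heckeBetaBar] at h

end Fermat.Agent.Carayol.Descent
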