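import Fermat.Agent.Carayol.Rigid
import Fermat.Agent.Carayol.Omega.CuspInst
import Fermat.Agent.Carayol.Statement
import Fermat.Agent.Carayol.Descent.Degree
import Fermat.Agent.Carayol.Descent.NormProd
import Fermat.Agent.Carayol.Descent.Bound

/-!
# The bound on fixed new torsion

A fixed new class killed by `m` gives a function whose combination of translates is a constant
times an `m`-th power; by rigidity a power of it is a constant times an `m`-th power.
-/

set_option autoImplicit false

noncomputable section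

open AlgebraicCurve ModularCurve
open Fermat.Agent.Arith (QBar)

namespace Fermat.Agent.Carayol.Descent

section Abstract

variable {K Ω : Type} [Field K] [Field Ω] [Algebra K Ω] [DecidableEq Ω]

/-- Constants times `m`-th powers. -/
def constPow (K Ω : Type) [Field K] [Field Ω] [Algebra K Ω] (m : ℕ) : Subgroup Ωˣ :=
  (Units.map (algebraMap K Ω).toMonoidHom).range ⊔ (powMonoidHom m).range

theorem mem_constPow {m : ℕ} {z : Ωˣ} :
    z ∈ constPow K Ω m ↔ ∃ (κ : Kˣ) (γ : Ωˣ),
      z = Units.map (algebraMap K Ω).toMonoidHom κ * γ ^ m := by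
  rw [constPow, Subgroup.mem_sup]
  constructor
  · rintro ⟨_, ⟨κ, rfl⟩, _, ⟨γ, rfl⟩, rfl⟩
    exact ⟨κ, γ, rfl⟩
  · rintro ⟨κ, γ, rfl⟩
    exact ⟨_, ⟨κ, rfl⟩, _, ⟨γ, rfl⟩, rfl⟩

variable (L : TateLevel K Ω)

theorem transl_mem_constPow {m : ℕ} {z : Ωˣ} (hz : z ∈ constPow K Ω m)
    (g : GL (Fin 2) (ZMod L.frame.q)) : L.transl z g ∈ constPow K Ω m := by
  obtain ⟨κ, γ, rfl⟩ := mem_constPow.1 hz
  refine mem_constPow.2 ⟨κ, L.transl γ g, Units.ext ?_⟩
  simp [TateLevel.coe_transl]

/-- The combination of a function with both partial norms in `constPow` lies in it. -/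
theorem lam_mem_constPow {m : ℕ} (f : Ωˣ)
    (hp : ∏ a, L.transl f (uPlus a) ∈ constPow K Ω m)
    (hn : ∏ a, L.transl f (uMinus a) ∈ constPow K Ω m) :
    L.lam (torusComb L.frame.q) (L.transl f) ∈ constPow K Ω m := by
  set P := (constPow K Ω m).toAddSubgroup with hP
  have hmem : ∀ (g : GL (Fin 2) (ZMod L.frame.q))
      (u : ZMod L.frame.q → GL (Fin 2) (ZMod L.frame.q)),
      ∏ a, L.transl f (u a) ∈ constPow K Ω m →
        ∑ a, Additive.ofMul (L.transl f (g * u a)) ∈ P := by
    intro g u hu
    rw [← ofMul_prod]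
    show ∏ a, L.transl f (g * u a) ∈ constPow K Ω m
    rw [show ∏ a, L.transl f (g * u a) = L.transl (∏ a, L.transl f (u a)) g from ?_]
    · exact transl_mem_constPow L hu g
    · rw [Finset.prod_congr rfl fun a _ => L.transl_mul_apply f g (u a)]
      exact (map_prod (Units.map (L.act g).toRingEquiv.toRingHom.toMonoidHom) _ _).symm
  show L.lam (torusComb L.frame.q) (L.transl f) ∈ constPow K Ω m
  rw [TateLevel.lam, sum_torusComb]
  show combOp (fun g => Additive.ofMul (L.transl f g)) ∈ P
  have h1 := hmem 1 uPlus hp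
  have h2 := hmem 1 uMinus hn
  simp only [one_mul] at h1 h2
  exact P.sub_mem
    (P.add_mem (P.zsmul_mem (P.add_mem h1 h2) _)
      (P.zsmul_mem (P.add_mem (hmem weylElt uPlus hp) (hmem weylElt uMinus hn)) _))
    (P.zsmul_mem (P.sum_mem fun x _ =>
      P.add_mem (hmem (uPlus x) uMinus hn) (hmem (uMinus x) uPlus hp)) _)

end Abstract

open Omega

/-- A setup of any level over the algebraic numbers. -/
theorem nonempty_setup (N : ℕ) [NeZero N] : Nonempty (Omega.Setup N QBar) := by
  obtain ⟨ι⟩ : Nonempty (QBar →ₐ[ℚ] ℂ) := ⟨IsAlgClosed.lift⟩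
  obtain ⟨ζ₀, hζ₀⟩ := HasEnoughRootsOfUnity.exists_primitiveRoot QBar N
  obtain ⟨i, -, hi⟩ := (hζ₀.map_of_injective ι.injective).eq_pow_of_pow_eq_one
    (isPrimitiveRoot_zetaC N).pow_eq_one
  exact ⟨⟨ι, ζ₀ ^ i, by rw [← hi, map_pow]; rfl⟩⟩

/-- Constants of the base in the series. -/
theorem algebraMap_rat (A : ValuationSubring QBar) (c : inertiaField A) :
    algebraMap (inertiaField A) (LaurentSeries QBar) c =
      algebraMap QBar (LaurentSeries QBar) (c : QBar) := rfl

/-- Constants of the field of level `N` over the base. -/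
theorem coe_algebraMap_ratField (A : ValuationSubring QBar) (N : ℕ) (c : inertiaField A) :
    ((algebraMap (inertiaField A) (ratField A N) c : ratField A N) : LaurentSeries QBar) =
      algebraMap QBar (LaurentSeries QBar) (c : QBar) := rfl

/-- Constants of the field of level `q n` over the base. -/
theorem coe_algebraMap_field {N : ℕ} [NeZero N] (E : Omega.Setup N QBar) (k : Type) [Field k]
    [Algebra k QBar] (c : k) :
    ((algebraMap k (E.field k) c : E.field k) : LaurentSeries QBar) =
      algebraMap QBar (LaurentSeries QBar) (algebraMap k QBar c) := by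
  rw [algebraMap_laurentSeries_eq_single, ← HahnSeries.C_apply]
  exact Omega.algebraMap_laurent_comp c

theorem qExpand_mem_field {q n M : ℕ} [NeZero q] [NeZero n] [NeZero M] [NeZero (q * n)]
    (A : ValuationSubring QBar) (E : Omega.Setup (q * n) QBar)
    {P : ZMod (q * n) × ZMod (q * n)} (hP : GoodPt P) (hcop : q.Coprime n) (hq : q.Prime)
    (hM : M ∣ n) {x : LaurentSeries QBar} (hx : x ∈ ratField A (q * M * q)) :
    qExpand QBar n x ∈ E.field (inertiaField A) := by
  induction hx using IntermediateField.adjoin_induction with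
  | mem z hz =>
    obtain ⟨d, hd, hdN, rfl⟩ := hz
    have := hd
    exact E.qExpand_jd_mem (inertiaField A) hP hcop hq hM hdN
  | algebraMap c =>
    rw [algebraMap_rat, algebraMap_laurentSeries_eq_single, qExpand_single, mul_zero,
      ← algebraMap_laurentSeries_eq_single]
    exact (coe_algebraMap_field E (inertiaField A) c) ▸ SetLike.coe_mem _
  | add a b _ _ ha hb => rw [map_add]; exact add_mem ha hb
  | inv a _ ha => rw [map_inv₀]; exact inv_mem ha
  | mul a b _ _ ha hb => rw [map_mul]; exact mul_mem ha hb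

theorem jExpand_mem_ratField (A : ValuationSubring QBar) (N d : ℕ) [NeZero d] (h : d ∣ N) :
    qExpand QBar d (jqModC QBar) ∈ ratField A N :=
  IntermediateField.subset_adjoin _ _ ⟨d, inferInstance, h, rfl⟩

/-- An automorphism fixing the generators and the constants fixes the image of the rational field. -/
theorem fixed_of_gens {q n M : ℕ} [NeZero q] [NeZero n] [NeZero M] [NeZero (q * n)]
    (A : ValuationSubring QBar) (E : Omega.Setup (q * n) QBar)
    {P : ZMod (q * n) × ZMod (q * n)} (hP : GoodPt P) (hcop : q.Coprime n) (hq : q.Prime)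
    (hM : M ∣ n) (e : E.field (inertiaField A) →+* E.field (inertiaField A))
    (hgen : ∀ (d : ℕ) [NeZero d], d ∣ q * M * q → ∀ y : E.field (inertiaField A),
      (y : LaurentSeries QBar) = qExpand QBar n (qExpand QBar d (jqModC QBar)) → e y = y)
    (hc : ∀ (y : E.field (inertiaField A)) (c : inertiaField A),
      (y : LaurentSeries QBar) = algebraMap QBar _ (c : QBar) → e y = y)
    (z : LaurentSeries QBar) (hz : z ∈ ratField A (q * M * q)) :
    e ⟨qExpand QBar n z, qExpand_mem_field A E hP hcop hq hM hz⟩ =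
      ⟨qExpand QBar n z, qExpand_mem_field A E hP hcop hq hM hz⟩ := by
  induction hz using IntermediateField.adjoin_induction with
  | mem z hz =>
    obtain ⟨d, hd, hdN, rfl⟩ := hz
    exact @hgen d hd hdN _ rfl
  | algebraMap c =>
    refine hc _ c ?_
    show qExpand QBar n (algebraMap (inertiaField A) (LaurentSeries QBar) c) = _
    rw [algebraMap_rat, algebraMap_laurentSeries_eq_single, qExpand_single, mul_zero]
  | add a b ha hb iha ihb =>
    convert congrArg₂ (· + ·) iha ihb using 1 <;>
    first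
      | (rw [← map_add]; congr 1; exact Subtype.ext (map_add (qExpand QBar n) a b))
      | exact Subtype.ext (map_add (qExpand QBar n) a b)
  | inv a ha iha =>
    convert congrArg (·⁻¹) iha using 1 <;>
    first
      | (rw [← map_inv₀]; congr 1; exact Subtype.ext (map_inv₀ (qExpand QBar n) a))
      | exact Subtype.ext (map_inv₀ (qExpand QBar n) a)
  | mul a b ha hb iha ihb =>
    convert congrArg₂ (· * ·) iha ihb using 1 <;>
    first
      | (rw [← map_mul]; congr 1; exact Subtype.ext (map_mul (qExpand QBar n) a b))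
      | exact Subtype.ext (map_mul (qExpand QBar n) a b)

theorem markLabel_good {q n L : ℕ} (hcop : q.Coprime n) (hn : n ≠ 0) (hL : L = 7 ∨ L = 9)
    (hLn : L ∣ n) : GoodPt (markLabel hcop L) := by
  have hord := nsmul_markLabel_eq_zero_iff hcop hn hLn
  refine ⟨fun h => ?_, fun h => ?_⟩
  · have := Nat.le_of_dvd (by norm_num) ((hord 2).mp h); omega
  · have := Nat.le_of_dvd (by norm_num) ((hord 3).mp h); omega

attribute [local instance 2000] Omega.serAlg

set_option maxHeartbeats 1000000 in
/-- The bound at one place. -/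
theorem smul_eq_zero_of_fixed {q n M : ℕ} [Fact q.Prime] [NeZero q] [NeZero n] [NeZero M] [NeZero (q * n)]
    (hq : q.Prime) (hqM : ¬ q ∣ M) (L : ℕ) (hL : L = 7 ∨ L = 9) (hLn : L ∣ n)
    (hcop : q.Coprime n) (hM : M ∣ n) (E : Omega.Setup (q * n) QBar)
    {lam a : ℕ} (hlam : lam.Prime) (hlq : lam ≠ q)
    {A : ValuationSubring QBar} (hA : A.LiesOverPrime q) {x : JZero (q * M * q)}
    (hx : lam ^ a • x = 0) (hfix : ∀ σ ∈ A.inertiaSubgroupIn ℚ, σ • x = x)
    (hnew : IsNewClass q M x) :
    (glueExp (torusComb q) * degBound (q * n)) • x = 0 := by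
  classical
  set k := inertiaField A
  haveI : IsGalois k QBar := IsGalois.tower_top_of_isGalois ℚ k QBar
  have hn0 : n ≠ 0 := NeZero.ne n
  have hP := markLabel_good hcop hn0 hL hLn
  have hgal := fun d => exists_aut_inertiaField hA hq (n := n)
    (fun h => hq.one_lt.ne' (Nat.eq_one_of_dvd_coprimes hcop dvd_rfl h)) E.isPrimitiveRoot d
  set T := E.tateLevel k hcop hq L hL hLn hgal with hT
  set m := lam ^ a with hm_def
  have hm0 : m ≠ 0 := pow_ne_zero _ hlam.ne_zero
  have hmU : IsUnit (m : (inertialBase hA hq).W) :=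
    TateLevel.isUnit_natCast (L := T) (U := inertialBase hA hq)
      (((Nat.coprime_primes hlam hq).2 hlq).pow_left a)
  -- the divisor and the function
  obtain ⟨D, rfl, hDfix⟩ := exists_fixed_rep hfix
  obtain ⟨hα, hβ⟩ := hnew D rfl
  have hmD : (m • (D : Divisor QBar (modularFunctionFieldBar (q * M * q)))).IsPrincipal := by
    have h1 : Pic0.mk (m • D) = 0 := by rw [← hx]; exact map_nsmul (QuotientAddGroup.mk' _) m D
    exact (QuotientAddGroup.eq_zero_iff _).1 h1
  obtain ⟨f, hf0, hffix, hford⟩ := exists_fixed_fun (A := A) hmD fun σ hσ => by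
    rw [smul_comm, hDfix σ hσ]
  have hord : ∀ P : Place QBar (modularFunctionFieldBar (q * M * q)),
      P.ord f = (m : ℤ) * (D : Divisor QBar _) P := fun P => by
    rw [← hford, Finsupp.smul_apply, nsmul_eq_mul]
  -- the embedding
  let R := ratField A (q * M * q)
  let φ : R →+* E.field k :=
    { toFun := fun z => ⟨qExpand QBar n (z : LaurentSeries QBar),
        qExpand_mem_field A E hP hcop hq hM z.2⟩
      map_one' := Subtype.ext (map_one (qExpand QBar n))
      map_mul' := fun _ _ => Subtype.ext (map_mul (qExpand QBar n) _ _)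
      map_zero' := Subtype.ext (map_zero (qExpand QBar n))
      map_add' := fun _ _ => Subtype.ext (map_add (qExpand QBar n) _ _) }
  have hφ : ∀ z : R, (φ z : LaurentSeries QBar) = qExpand QBar n (z : LaurentSeries QBar) :=
    fun z => rfl
  have hφc : ∀ (z : R) (c : k), (z : LaurentSeries QBar) = algebraMap QBar _ (c : QBar) →
      φ z = algebraMap k (E.field k) c := fun z c hz => Subtype.ext (by
    rw [hφ, hz, algebraMap_laurentSeries_eq_single, qExpand_single, mul_zero,
      ← algebraMap_laurentSeries_eq_single]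
    exact (coe_algebraMap_field E k c).symm)
  let f' : R := ⟨f, mem_ratField f.2 hffix⟩
  have hf'0 : f' ≠ 0 := fun h => hf0 (Subtype.ext (congrArg (fun z : R => (z : LaurentSeries QBar)) h))
  let u : (E.field k)ˣ := Units.mk0 (φ f') (by simpa using hf'0)
  have hjR : qExpand QBar q (jqModC QBar) ∈ R :=
    jExpand_mem_ratField A _ q (dvd_mul_left q _)
  -- invariance under the torus
  have hFixed : T.FixedBy (torusComb q) u := by
    rintro _ ⟨⟨d₁, d₂⟩, rfl⟩
    refine Units.ext ?_
    show T.act (diagElt d₁ d₂) (φ f') = φ f'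
    set e := T.act (diagElt d₁ d₂) with he
    have hmv := E.act_moves k hq L hL hLn hcop hgal (diagElt d₁ d₂)
    exact fixed_of_gens A E hP hcop hq hM (e : E.field k →+* E.field k)
      (fun d _ hdN y hy => E.fixed_diag hP hcop hq hM hdN rfl rfl
        hmv hy)
      (fun y c hy => by
        rw [show y = algebraMap k (E.field k) c from
          Subtype.ext (hy.trans (coe_algebraMap_field E k c).symm)]
        exact e.commutes c) _ f'.2
  -- places
  have hpl : Places k m u := fun v hv =>
    dvd_log_valuation hDfix hf0 hord f'.2 (v.comap φ) fun c hc => by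
      rw [Valuation.comap_apply, hφc _ c (coe_algebraMap_ratField A _ c)]
      exact hv c hc
  -- the partial norms
  have hnorm : ∀ (ψ : modularFunctionFieldBar (q * M) →ₐ[QBar] modularFunctionFieldBar (q * M * q))
      (hψ : ∀ (σ : QBar ≃ₐ[ℚ] QBar) (y : modularFunctionFieldBar (q * M)),
        ψ ((arithmeticGalois (modularFunctionFieldFull (q * M)) σ) • y) =
          (arithmeticGalois (modularFunctionFieldFull (q * M * q)) σ) • ψ y)
      (hp : (Divisor.pushforwardAlong ψ (FF.isIntegralAlong _)
        (D : Divisor QBar (modularFunctionFieldBar (q * M * q)))).IsPrincipal)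
      (w : ZMod q → GL (Fin 2) (ZMod q)),
      ((∏ a, T.act (w a) (φ f') : E.field k) : LaurentSeries QBar) =
          qExpand QBar n (ψ (normAlong ψ f) : LaurentSeries QBar) →
        ∏ a, T.transl u (w a) ∈ constPow k (E.field k) m := by
    intro ψ hψ hp w hw
    obtain ⟨c, g, hc, hg0, hgfix, hg⟩ :=
      exists_norm_eq ψ (FF.isIntegralAlong _) hψ hm0 hf0 hffix hord hp
    let g' : R := ⟨ψ g, mem_ratField (ψ g).2 (coeffFixed_iff.2 fun σ hσ => by
      rw [← hψ, coeffFixed_iff.1 hgfix σ hσ])⟩
    have hg'0 : φ g' ≠ 0 := by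
      rw [_root_.map_ne_zero]
      intro h
      exact hg0 (ψ.injective ((Subtype.ext (congrArg (fun z : R => (z : LaurentSeries QBar)) h) :
        ψ g = 0).trans (map_zero ψ).symm))
    refine mem_constPow.2 ⟨Units.mk0 c hc, Units.mk0 _ hg'0, Units.ext (Subtype.ext ?_)⟩
    have e : normAlong ψ f = algebraMap QBar _ (c : QBar) * g ^ m := Subtype.ext hg
    refine ((congrArg Subtype.val (Units.coe_prod (fun a => T.transl u (w a)) Finset.univ)).trans
      hw).trans ?_
    rw [e, map_mul, map_pow, AlgHom.commutes]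
    show qExpand QBar n (algebraMap QBar (LaurentSeries QBar) (c : QBar)
        * (ψ g : LaurentSeries QBar) ^ m) =
      ((algebraMap k (E.field k) c : E.field k) : LaurentSeries QBar) *
        (φ g' : LaurentSeries QBar) ^ m
    rw [map_mul, map_pow, hφ, coe_algebraMap_field, algebraMap_laurentSeries_eq_single,
      qExpand_single, mul_zero, ← algebraMap_laurentSeries_eq_single]
    rfl
  have hqR : q ∣ q * M := dvd_mul_right q M
  have hplus : ∏ a, T.transl u (uPlus a) ∈ constPow k (E.field k) m := by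
    refine hnorm (heckeAlphaBar QBar (q * M) q) (fun σ y => Subtype.ext ?_) hα uPlus ?_
    · rw [coe_arithmeticGalois_smul, coe_heckeAlphaBar, coe_heckeAlphaBar,
        coe_arithmeticGalois_smul]
    · rw [coe_heckeAlphaBar]
      exact prod_uPlus_eq E k hq L hL hLn hcop hM hgal
        (finrankAlong_alpha_of_dvd _ q hq hqR) f (φ f') (hφ f')
  have hminus : ∏ a, T.transl u (uMinus a) ∈ constPow k (E.field k) m := by
    refine hnorm (heckeBetaBar QBar (q * M) q) (fun σ y => Subtype.ext ?_) hβ uMinus ?_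
    · rw [coe_arithmeticGalois_smul, coe_heckeBetaBar, coe_heckeBetaBar,
        coe_arithmeticGalois_smul, coeffMap_qExpand]
    · rw [coe_heckeBetaBar]
      exact prod_uMinus_eq E k hq L hL hLn hcop hM hgal
        (finrankAlong_beta_of_dvd _ q hq hqR) f (φ f') (hφ f')
  obtain ⟨κ, γ, hlamEq⟩ := mem_constPow.1 (lam_mem_constPow T u hplus hminus)
  -- rigidity
  obtain ⟨κ', h, hh⟩ := exists_const_mul_pow (E.cuspEmb hA hq hcop L hL hLn hgal) (torusComb q)
    hmU hFixed hpl hlamEq
  -- descent
  set G := glueExp (torusComb q)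
  set B := degBound (q * n)
  let F : IntermediateField k (E.field k) := φ.fieldRange.toIntermediateField fun c =>
    ⟨algebraMap (inertiaField A) (ratField A (q * M * q)) c,
      hφc _ c (coe_algebraMap_ratField A _ c)⟩
  have hjφ : E.fj k ∈ F := ⟨⟨_, hjR⟩, Subtype.ext (by
    rw [E.coe_fj]
    refine (qExpand_qExpand q n (jqModC QBar)).trans ?_
    exact qExpand_congr (mul_comm n q) _)⟩
  obtain ⟨g, ⟨g₀, rfl⟩, hg⟩ := exists_descent E k F hjφ (x := φ (f' ^ G))
    ⟨_, rfl⟩ (c := (κ' : k)) (h := (h : E.field k)) (m := m) (by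
      rw [map_pow]; exact congrArg Units.val hh)
  let g₁ : modularFunctionFieldBar (q * M * q) :=
    ⟨g₀, mem_bar_of_mem_ratField g₀.2⟩
  have hrel' : f ^ (G * B) = algebraMap QBar _ (((κ' : k) ^ B : k) : QBar) * g₁ ^ m := by
    refine Subtype.ext ((qExpand_injective n) ?_)
    have := congrArg (fun z : E.field k => (z : LaurentSeries QBar)) hg
    rw [← map_pow, ← pow_mul] at this
    refine this.trans ?_
    show ((algebraMap k (E.field k) ((κ' : k) ^ B) : E.field k) : LaurentSeries QBar) *
      (φ g₀ : LaurentSeries QBar) ^ m = qExpand QBar n (algebraMap QBar (LaurentSeries QBar)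
        (((κ' : k) ^ B : k) : QBar) * (g₀ : LaurentSeries QBar) ^ m)
    rw [coe_algebraMap_field, map_mul (qExpand QBar n), map_pow (qExpand QBar n), hφ,
      algebraMap_laurentSeries_eq_single QBar (((κ' : k) ^ B : k) : QBar),
      qExpand_single, mul_zero, ← algebraMap_laurentSeries_eq_single]
    rfl
  have hc0 : algebraMap QBar (modularFunctionFieldBar (q * M * q))
      (((κ' : k) ^ B : k) : QBar) ≠ 0 := by
    simp
  have hg₁ : g₁ ≠ 0 := fun h0 => by
    rw [h0, zero_pow hm0, mul_zero] at hrel'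
    exact pow_ne_zero _ hf0 hrel'
  refine (QuotientAddGroup.eq_zero_iff _).2 ?_
  show (((G * B) • D : Divisor.degZero (K := QBar) (F := modularFunctionFieldBar (q * M * q))) :
    Divisor QBar (modularFunctionFieldBar (q * M * q))).IsPrincipal
  refine ⟨g₁, hg₁, fun P => ?_⟩
  have h1 := congrArg P.ord hrel'
  rw [JacTorsion.ord_pow, hord, P.ord_mul hc0 (pow_ne_zero _ hg₁), FF.ord_algebraMap, zero_add,
    JacTorsion.ord_pow] at h1
  refine mul_left_cancel₀ (Nat.cast_ne_zero.2 hm0 : (m : ℤ) ≠ 0) ?_
  rw [AddSubgroupClass.coe_nsmul, Finsupp.smul_apply, nsmul_eq_mul, ← h1]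
  push_cast
  ring

/-- **The geometric theorem.** -/
theorem fixedNewTorsionBound (q M : ℕ) [NeZero q] [NeZero M] (hq : q.Prime) (hqM : ¬ q ∣ M) :
    FixedNewTorsionBound q M := by
  haveI : Fact q.Prime := ⟨hq⟩
  obtain ⟨L, hL, hqL⟩ : ∃ L, (L = 7 ∨ L = 9) ∧ ¬ q ∣ L := by
    by_cases h : q = 7
    · exact ⟨9, Or.inr rfl, by rw [h]; norm_num⟩
    · exact ⟨7, Or.inl rfl, fun h' =>
        h ((Nat.prime_dvd_prime_iff_eq hq (by norm_num)).1 h')⟩
  have hL0 : L ≠ 0 := by rcases hL with rfl | rfl <;> norm_num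
  haveI : NeZero (L * M) := ⟨mul_ne_zero hL0 (NeZero.ne M)⟩
  haveI : NeZero (q * (L * M)) := ⟨mul_ne_zero (NeZero.ne q) (NeZero.ne (L * M))⟩
  have hcop : q.Coprime (L * M) :=
    (hq.coprime_iff_not_dvd).2 fun h => (hq.dvd_mul.1 h).elim hqL hqM
  obtain ⟨E⟩ := nonempty_setup (q * (L * M))
  refine ⟨glueExp (torusComb q) * degBound (q * (L * M)),
    Nat.mul_pos (glueExp_pos _) (Nat.factorial_pos _), fun lam a hlam hlq A hA x h1 h2 h3 => ?_⟩
  exact smul_eq_zero_of_fixed hq hqM L hL (dvd_mul_right L M) hcop (dvd_mul_left M L) E hlam hlq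
    hA h1 h2 h3

end Fermat.Agent.Carayol.Descent

end
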