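import Fermat.Agent.Carayol.Consumer
import Fermat.Agent.ConductorLevel.Assembly
import Fermat.Agent.Semistable.HeckeRep
import Fermat.Agent.Semistable.Torsion
import Fermat.Agent.FiniteFlat.Injective

/-!
# S36 and conductor level matching from the bound and the square of Frobenius

The congruences on torsion and the unipotence of torsion are proved; what is taken as hypotheses
is `FixedNewTorsionBound` and, for S35, `ToricSquareAt`.
-/

set_option autoImplicit false

noncomputable section

namespace Fermat.Agent.Carayol.Descent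

/-- The statement of S36 from the geometric bound. -/
theorem newformCarayolInput
    (hB : ∀ (q M : ℕ) [NeZero q] [NeZero M], q.Prime → ¬ q ∣ M → FixedNewTorsionBound q M) :
    ConductorLevel.NewformCarayolInput :=
  fun hg lam _ S O' _ _ _ _ _ _ hlamO' hlam2 chig hchig iota hlamS hMS _ =>
    exists_rep_not_unipotent
      (GaloisReps.congruenceProperty_all fun N _ => EichlerShimura.injectiveOnTorsion N)
      hB hg lam S O' hlamO' hlam2 chig hchig iota hlamS hMS

/-- The statement of S35 from the square of Frobenius on toric vectors. -/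
theorem newformRepInput
    (hTS : ∀ (N p : ℕ) [NeZero N] [Fact p.Prime] (hES : GaloisReps.CongruenceProperty N p) (q : ℕ),
      q.Prime → q ≠ p → q ∣ N → ¬ q ^ 2 ∣ N →
        NewformLocal.ToricSquareAt (GaloisReps.modelOfCongruence hES) q) :
    ConductorLevel.NewformRepInput :=
  fun hg lam _ S O' _ _ _ _ _ _ hlamO' chig hchig iota hlamS hMS =>
    Semistable.exists_rep_frobenius_bad (fun N _ => EichlerShimura.injectiveOnTorsion N)
      (fun N _ _ hq hqN hq2 => Semistable.torsionUnipotentAt N hq hqN hq2)
      hTS hg lam S O' hlamO' chig hchig iota hlamS hMS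

/-- Conductor–level matching, the statement of S58. -/
theorem isModularModelOfLevel_conductorLevel
    (hB : ∀ (q M : ℕ) [NeZero q] [NeZero M], q.Prime → ¬ q ∣ M → FixedNewTorsionBound q M)
    (hTS : ∀ (N p : ℕ) [NeZero N] [Fact p.Prime] (hES : GaloisReps.CongruenceProperty N p) (q : ℕ),
      q.Prime → q ≠ p → q ∣ N → ¬ q ^ 2 ∣ N →
        NewformLocal.ToricSquareAt (GaloisReps.modelOfCongruence hES) q)
    (W : WeierstrassCurve ℤ) (hss : W.IsSemistableModel) (N : ℕ)
    (p : ℕ) [Fact p.Prime] (hp2 : p ≠ 2) (hirr : W.ModRepIsIrreducible p)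
    (hp2N : ¬ p ^ 2 ∣ N)
    (hN : W.IsModularModelOfLevel N) (hbad : ∀ ℓ : ℕ, ℓ.Prime → (ℓ : ℤ) ∣ W.Δ → ℓ ∣ N)
    (hN3 : ∀ q : ℕ, q.Prime → ¬ q ^ 3 ∣ N) :
    W.IsModularModelOfLevel W.conductorLevel :=
  ConductorLevel.isModularModelOfLevel_conductorLevel (newformRepInput hTS)
    (newformCarayolInput hB) W hss N p hp2 hirr hp2N hN hbad hN3

end Fermat.Agent.Carayol.Descent
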